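import Fermat.Agent.EichlerShimura.Eigensystem
import Fermat.Agent.EichlerShimura.FiniteLevelX0
import Fermat.Agent.EichlerShimura.EigenCharacter
import Fermat.Agent.EichlerShimura.IntegersResidue
import Fermat.Agent.EichlerShimura.ResidualCharacter
import Fermat.Agent.RT.FreyResidual
import Fermat.Agent.Density.CharpolyDetermines

/-!
# A residually modular irreducible representation sits in the `p`-torsion of the Jacobian

If an absolutely irreducible `ρ : Γ_ℚ → GL₂(𝔽_p)` has the Frobenius traces of a weight two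
eigenform of level `M` modulo a prime above `p`, there is an injective equivariant map from its
space into `J₀(M)(ℚ̄)`; the Hecke operators `T_ℓ` act on the image by the traces.
-/

set_option autoImplicit false
set_option linter.style.haveILetI false

noncomputable section

open Polynomial ModularCurve
open scoped TensorProduct

namespace Fermat.Agent.BadPrime.Mazur

open Fermat.Agent.EichlerShimura

local notation "ℚ̄" => AlgebraicClosure ℚ
local notation "Γℚ" => (AlgebraicClosure ℚ ≃ₐ[ℚ] AlgebraicClosure ℚ)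

/-- An equivariant additive map out of an irreducible representation over `ZMod p` is zero or
injective. -/
theorem eq_zero_or_injective {p : ℕ} [Fact p.Prime] {ρ : ResidualGaloisRep (ZMod p)}
    (hirr : ρ.IsIrreducible) {B : Type*} [AddCommGroup B] (act : Γℚ → B →+ B) (ψ : ρ.V →+ B)
    (hψ : ∀ σ v, ψ (ρ.ρ σ v) = act σ (ψ v)) : ψ = 0 ∨ Function.Injective ψ := by
  rcases hirr (AddSubgroup.toZModSubmodule p ψ.ker) (fun σ x hx => by
      rw [AddSubgroup.mem_toZModSubmodule, AddMonoidHom.mem_ker] at hx ⊢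
      rw [hψ, hx, map_zero]) with h | h
  · refine Or.inr ((injective_iff_map_eq_zero ψ).2 fun x hx => ?_)
    have : x ∈ AddSubgroup.toZModSubmodule p ψ.ker := by simpa using hx
    simpa [h] using this
  · refine Or.inl (AddMonoidHom.ext fun x => ?_)
    have : x ∈ AddSubgroup.toZModSubmodule p ψ.ker := h ▸ Submodule.mem_top
    simpa using this

/-- The `p`-torsion points receive an irreducible residually modular representation. -/
theorem exists_embedding {p : ℕ} [Fact p.Prime] {M : ℕ} [NeZero M]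
    (hK : HasKummerIso M) (hF : FrobeniusOnTorsion M p)
    (ρE : ResidualGaloisRep (ZMod p)) (habs : ρE.IsAbsolutelyIrreducible)
    (S : Finset ℕ) (a : ℕ → ℤ)
    (hchar : ∀ ℓ : ℕ, ℓ.Prime → ℓ ∉ S → ∀ A : ValuationSubring ℚ̄, A.LiesOverPrime ℓ →
      ∀ σ : Γℚ, A.IsFrobeniusAt σ ℓ →
        LinearMap.charpoly (ρE.ρ σ) = X ^ 2 - C (a ℓ : ZMod p) * X + C (ℓ : ZMod p))
    {g : CuspForm (CongruenceSubgroup.Gamma0 M) 2} (hg : g.IsNormalizedEigenform)
    {𝔪 : Ideal (integralClosure ℤ ℂ)} (hmax : 𝔪.IsMaximal)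
    (hpm : (p : integralClosure ℤ ℂ) ∈ 𝔪)
    (hcong : ∀ ℓ : ℕ, ℓ.Prime → ℓ ∉ S → ∃ b : integralClosure ℤ ℂ,
      (b : ℂ) = ModularFormClass.qCoeff g ℓ ∧ b - ((a ℓ : ℤ) : integralClosure ℤ ℂ) ∈ 𝔪) :
    ∃ ψ : ρE.V →+ JZero M, Function.Injective ψ ∧ ∀ (σ : Γℚ) v, ψ (ρE.ρ σ v) = σ • ψ v := by
  classical
  have hp : p.Prime := Fact.out
  obtain ⟨χ, hχ⟩ := exists_eigenCharacter hg
  let k₀ := integralClosure ℤ ℂ ⧸ 𝔪
  let _ : Field k₀ := Ideal.Quotient.field _
  have : IsAlgClosed k₀ := IsAlgClosed.of_exists_root k₀ fun f hf hirr =>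
    exists_root_quotient_integers _ f hf (ne_of_gt (degree_pos_of_irreducible hirr))
  have hp0 : (p : k₀) = 0 := by
    rw [← map_natCast (Ideal.Quotient.mk 𝔪)]
    exact Ideal.Quotient.eq_zero_iff_mem.2 hpm
  haveI : CharP k₀ p := (CharP.charP_iff_prime_eq_zero hp).2 hp0
  have := HeckeFinite.moduleFinite_heckeAlgebra M 2 (∅ : Set ℕ)
  have : Module.Free ℤ (CuspForm.heckeAlgebra M 2 (∅ : Set ℕ)) :=
    Module.free_of_finite_type_torsion_free'
  obtain ⟨O, _, _, _, _, _, _, hpO, χ', j, hj⟩ := exists_padic_lift p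
    (CuspForm.heckeAlgebra M 2 (∅ : Set ℕ)) k₀ ((Ideal.Quotient.mk 𝔪).comp χ)
  obtain ⟨ρ, hcharρ, -, hf⟩ := exists_galoisRepAdic_of_eigensystem_tate M p hK hF
    (galoisFiniteLevel_x0 M) O hpO χ'
  obtain ⟨m, f, hf0, -, hfσ⟩ := hf 1
  let κ := IsLocalRing.ResidueField O
  have hpκ : (p : κ) = 0 := by
    rw [← map_natCast (IsLocalRing.residue O), IsLocalRing.residue_eq_zero_iff]
    exact hpO
  haveI : CharP κ p := (CharP.charP_iff_prime_eq_zero hp).2 hpκ
  let ι : ZMod p →+* κ := ZMod.castHom dvd_rfl κ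
  -- `ρE ⊗ κ ≅ ρ mod 𝔪`
  have heq : (ρE.baseChangeAlong ι).IsEquiv ρ.residual := by
    refine Density.residual_isEquiv_of_frobenius _ _ (S ∪ M.primeFactors ∪ {p})
      (RT.isAbsolutelyIrreducible_baseChangeAlong ι ρE habs) fun ℓ hℓ hℓS A hA σ hσ => ?_
    simp only [Finset.mem_union, Finset.mem_singleton, not_or] at hℓS
    obtain ⟨⟨hS, hMℓ⟩, hℓp⟩ := hℓS
    have hℓM : ¬ ℓ ∣ M := fun h => hMℓ (Nat.mem_primeFactors.2 ⟨hℓ, h, NeZero.ne M⟩)
    rw [RT.charpoly_baseChangeAlong, hchar ℓ hℓ hS A hA σ hσ]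
    show _ = LinearMap.charpoly ((ρ.ρ σ).baseChange κ)
    rw [LinearMap.charpoly_baseChange, hcharρ ℓ hℓ hℓM hℓp A hA σ hσ]
    obtain ⟨b, hb, hbm⟩ := hcong ℓ hℓ hS
    have key : IsLocalRing.residue O (χ' (CuspForm.heckeAlgebra.T hℓ hℓM (Set.notMem_empty ℓ))) =
        ((a ℓ : ℤ) : κ) := by
      refine j.injective ?_
      rw [hj, map_intCast, RingHom.comp_apply]
      obtain rfl : χ (CuspForm.heckeAlgebra.T hℓ hℓM (Set.notMem_empty ℓ)) = b :=
        Subtype.ext ((hχ ℓ hℓ hℓM).trans hb.symm)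
      rw [← map_intCast (Ideal.Quotient.mk 𝔪)]
      exact Ideal.Quotient.eq.2 hbm
    simp only [Polynomial.map_add, Polynomial.map_sub, Polynomial.map_mul, Polynomial.map_pow,
      map_X, map_C, map_natCast, map_intCast, Polynomial.map_natCast, Polynomial.map_intCast]
    rw [show algebraMap O κ (χ' (CuspForm.heckeAlgebra.T hℓ hℓM (Set.notMem_empty ℓ))) =
      ((a ℓ : ℤ) : κ) from key, map_intCast]
  obtain ⟨e⟩ := heq
  -- `p = ϖ * c`
  obtain ⟨ϖ, hϖ⟩ := IsDiscreteValuationRing.exists_irreducible O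
  obtain ⟨c, hc⟩ : ϖ ∣ (p : O) := by
    rw [hϖ.maximalIdeal_eq, Ideal.mem_span_singleton] at hpO
    exact hpO
  have hpne : (p : O) ≠ 0 := by exact_mod_cast hp.ne_zero
  have hc0 : c ≠ 0 := fun h => hpne (by rw [hc, h, mul_zero])
  let φ : ρ.V →+ (Fin m → JZero M) := f.comp (DistribSMul.toAddMonoidHom ρ.V c)
  have hφ : ∀ v, φ v = f (c • v) := fun v => rfl
  -- `v ↦ 1 ⊗ v`
  let π : ρ.V →+ κ ⊗[O] ρ.V := ((TensorProduct.mk O κ ρ.V) 1).toAddMonoidHom
  have hπ : Function.Surjective π :=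
    TensorProduct.mk_surjective O ρ.V κ IsLocalRing.residue_surjective
  let b := Module.finBasisOfFinrankEq O ρ.V ρ.finrank_eq
  have hker : ∀ v, π v = 0 ↔ φ v = 0 := by
    intro v
    have h1 : π v = 0 ↔ ∀ i, ϖ ∣ b.repr v i := by
      rw [← (Algebra.TensorProduct.basis κ b).repr.map_eq_zero_iff, Finsupp.ext_iff]
      refine forall_congr' fun i => ?_
      show (Algebra.TensorProduct.basis κ b).repr ((1 : κ) ⊗ₜ[O] v) i = 0 ↔ _
      rw [Algebra.TensorProduct.basis_repr_tmul, Finsupp.smul_apply, Finsupp.mapRange_apply,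
        one_smul, IsLocalRing.ResidueField.algebraMap_eq, IsLocalRing.residue_eq_zero_iff,
        hϖ.maximalIdeal_eq, Ideal.mem_span_singleton]
    rw [h1, hφ]
    simp only [pow_one, hf0]
    constructor
    · intro h
      choose d hd using h
      refine ⟨b.equivFun.symm d, b.ext_elem fun i => ?_⟩
      rw [map_smul, map_smul, Finsupp.smul_apply, Finsupp.smul_apply, smul_eq_mul, smul_eq_mul,
        hd i, ← Module.Basis.equivFun_apply, LinearEquiv.apply_symm_apply, hc]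
      ring
    · rintro ⟨w, hw⟩ i
      have := congrArg (fun x => b.repr x i) hw
      simp only [map_smul, Finsupp.smul_apply, smul_eq_mul, hc] at this
      exact ⟨b.repr w i, mul_left_cancel₀ hc0 (by rw [this]; ring)⟩
  have hle : π.ker ≤ φ.ker := fun v hv => (hker v).1 hv
  let Φ : (κ ⊗[O] ρ.V) →+ (Fin m → JZero M) :=
    π.liftOfSurjective hπ ⟨φ, hle⟩
  have hΦ : ∀ v, Φ (π v) = φ v := fun v =>
    π.liftOfRightInverse_comp_apply _ _ ⟨φ, hle⟩ v
  let _ : Algebra (ZMod p) κ := ι.toAlgebra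
  let inc : ρE.V →+ (ρE.baseChangeAlong ι).V :=
    ((TensorProduct.mk (ZMod p) κ ρE.V) 1).toAddMonoidHom
  let Ψ : ρE.V →+ (Fin m → JZero M) := Φ.comp (e.toLinearEquiv.toAddMonoidHom.comp inc)
  have hΨ : ∀ (σ : Γℚ) v i, Ψ (ρE.ρ σ v) i = σ • Ψ v i := by
    intro σ v i
    obtain ⟨u, hu⟩ := hπ (e.toLinearEquiv (inc v))
    have h1 : e.toLinearEquiv (inc (ρE.ρ σ v)) = π (ρ.ρ σ u) := by
      rw [show inc (ρE.ρ σ v) = (ρE.baseChangeAlong ι).ρ σ (inc v) from rfl, e.map_apply, ← hu]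
      rfl
    show Φ (e.toLinearEquiv (inc (ρE.ρ σ v))) i = σ • Φ (e.toLinearEquiv (inc v)) i
    rw [h1, ← hu, hΦ, hΦ, hφ, hφ, ← map_smul (ρ.ρ σ), hfσ]
  -- a nonzero component
  have hne : Nontrivial ρE.V := Module.nontrivial_of_finrank_eq_succ ρE.finrank_eq
  obtain ⟨v₀, hv₀⟩ := exists_ne (0 : ρE.V)
  have hv : Ψ v₀ ≠ 0 := by
    obtain ⟨u, hu⟩ := hπ (e.toLinearEquiv (inc v₀))
    show Φ (e.toLinearEquiv (inc v₀)) ≠ 0
    rw [← hu, hΦ, Ne, ← hker, hu]
    intro h'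
    have h : inc v₀ = 0 := e.toLinearEquiv.map_eq_zero_iff.1 h'
    have hinj : Function.Injective fun v : ρE.V => (1 : κ) ⊗ₜ[ZMod p] v :=
      Module.Flat.tensorProduct_mk_injective (R := ZMod p) ρE.V κ
    exact hv₀ (hinj (h.trans (TensorProduct.tmul_zero _ _).symm))
  obtain ⟨i, hi⟩ := Function.ne_iff.1 hv
  let ψ : ρE.V →+ JZero M := (Pi.evalAddMonoidHom (fun _ : Fin m => JZero M) i).comp Ψ
  have hψ : ∀ (σ : Γℚ) v, ψ (ρE.ρ σ v) = σ • ψ v := fun σ v => hΨ σ v i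
  refine ⟨ψ, ?_, hψ⟩
  refine (eq_zero_or_injective (Density.isIrreducible_of_absolutelyIrreducible ρE habs)
    (fun σ => DistribSMul.toAddMonoidHom (JZero M) σ) ψ hψ).resolve_left fun h => hi ?_
  exact DFunLike.congr_fun h v₀

/-- `T_ℓ` acts on the image of an equivariant map by the trace of Frobenius. -/
theorem heckeOperatorBar_apply_of_equivariant {p : ℕ} [Fact p.Prime] {M : ℕ} [NeZero M]
    (hF : FrobeniusOnTorsion M p) {ρE : ResidualGaloisRep (ZMod p)} {ψ : ρE.V →+ JZero M}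
    (hψ : ∀ (σ : Γℚ) v, ψ (ρE.ρ σ v) = σ • ψ v) {ℓ : ℕ} (hℓ : ℓ.Prime) (hℓM : ¬ ℓ ∣ M * p)
    {a : ℤ} (hchar : ∀ A : ValuationSubring ℚ̄, A.LiesOverPrime ℓ →
      ∀ σ : Γℚ, A.IsFrobeniusAt σ ℓ →
        LinearMap.charpoly (ρE.ρ σ) = X ^ 2 - C (a : ZMod p) * X + C (ℓ : ZMod p))
    (v : ρE.V) : heckeOperatorBar M ⟨ℓ, hℓ⟩ (ψ v) = a • ψ v := by
  obtain ⟨A, σ, hA, hσ⟩ := Galois.exists_valuationSubring_isFrobeniusAt hℓ
  have htors : ∀ w : ρE.V, p • ψ w = 0 := fun w => by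
    rw [← map_nsmul, ← Nat.cast_smul_eq_nsmul (ZMod p), ZMod.natCast_self, zero_smul, map_zero]
  obtain ⟨w, rfl⟩ : ∃ w, ρE.ρ σ w = v := by
    refine ⟨ρE.ρ σ⁻¹ v, ?_⟩
    rw [← Module.End.mul_apply, ← map_mul, mul_inv_cancel, map_one, Module.End.one_apply]
  have hrel := ((hF ℓ hℓ hℓM A hA).2 σ hσ (ψ w) ⟨1, by rw [pow_one]; exact htors w⟩)
  have hCH := LinearMap.aeval_self_charpoly (ρE.ρ σ)
  rw [hchar A hA σ hσ] at hCH
  simp only [map_add, map_sub, map_mul, map_pow, aeval_X, aeval_C,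
    Algebra.algebraMap_eq_smul_one, smul_mul_assoc, one_mul] at hCH
  have h2 : ρE.ρ σ (ρE.ρ σ w) - a • ρE.ρ σ w + ℓ • w = 0 := by
    have h := LinearMap.congr_fun hCH w
    simpa [pow_two, Module.End.mul_apply, Int.cast_smul_eq_zsmul, Nat.cast_smul_eq_nsmul]
      using h
  have h3 := congrArg ψ h2
  simp only [map_add, map_sub, map_zsmul, map_nsmul, map_zero, hψ] at h3
  rw [hψ]
  have h4 := hrel.trans h3.symm
  simpa using h4

end Fermat.Agent.BadPrime.Mazur
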