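import Fermat.Agent.BadPrime.Mazur.LevelDescent
import Fermat.Agent.BadPrime.Mazur.Embedding
import Fermat.Agent.EichlerShimura.S29Of
import Fermat.Agent.EC.Det.AbsIrreducible
import Fermat.Agent.LevelRaise.NonEisenstein
import Fermat.Agent.RT.TorsionFrobenius

/-!
# Mazur's principle from the local inputs
-/

set_option autoImplicit false
set_option linter.style.haveILetI false

noncomputable section

open ModularCurve Polynomial
open scoped WeierstrassCurve.Affine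

namespace Fermat.Agent.BadPrime.Mazur

open Fermat.Agent.EichlerShimura

local notation "ℚ̄" => AlgebraicClosure ℚ
local notation "Γℚ" => (AlgebraicClosure ℚ ≃ₐ[ℚ] AlgebraicClosure ℚ)

/-- The finite Galois extension cut out by a residual representation. -/
theorem exists_kernelField {k : Type} [Field k] (ρ : ResidualGaloisRep k) :
    ∃ L : IntermediateField ℚ ℚ̄, FiniteDimensional ℚ L ∧ IsGalois ℚ L ∧
      L.fixingSubgroup = ρ.ρ.ker := by
  haveI : IsAlgClosure ℚ ℚ̄ := ⟨inferInstance, AlgebraicClosure.isAlgebraic ℚ⟩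
  haveI : IsGalois ℚ ℚ̄ := IsAlgClosure.isGalois ℚ ℚ̄
  obtain ⟨L₀, hL₀, h₀⟩ := ρ.factorsThroughFiniteLevel
  have hle : L₀.fixingSubgroup ≤ ρ.ρ.ker := fun σ hσ =>
    h₀ σ ((IntermediateField.mem_fixingSubgroup_iff _ _).1 hσ)
  have hopen : IsOpen (ρ.ρ.ker : Set Γℚ) :=
    Subgroup.isOpen_mono hle (IntermediateField.fixingSubgroup_isOpen L₀)
  have hfix : (IntermediateField.fixedField ρ.ρ.ker).fixingSubgroup = ρ.ρ.ker :=
    InfiniteGalois.fixingSubgroup_fixedField ⟨ρ.ρ.ker, Subgroup.isClosed_of_isOpen _ hopen⟩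
  exact ⟨_, (InfiniteGalois.isOpen_iff_finite _).mp (by rw [hfix]; exact hopen),
    (InfiniteGalois.normal_iff_isGalois _).mp (by rw [hfix]; infer_instance), hfix⟩

/-- An equivariant map can be chosen to be an eigenvector of a commuting involution. -/
theorem exists_eigen_embedding {p : ℕ} [Fact p.Prime] {ρ : ResidualGaloisRep (ZMod p)}
    (hirr : ρ.IsIrreducible) {B : Type*} [AddCommGroup B] [DistribMulAction Γℚ B] (w : B →+ B)
    (hw : ∀ x, w (w x) = x) (hwσ : ∀ (σ : Γℚ) x, σ • w x = w (σ • x)) (ψ : ρ.V →+ B)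
    (hψ0 : Function.Injective ψ) (hψ : ∀ (σ : Γℚ) v, ψ (ρ.ρ σ v) = σ • ψ v) :
    ∃ (ψ' : ρ.V →+ B) (ε : ℤ), (ε = 1 ∨ ε = -1) ∧ Function.Injective ψ' ∧
      (∀ (σ : Γℚ) v, ψ' (ρ.ρ σ v) = σ • ψ' v) ∧ ∀ v, w (ψ' v) = ε • ψ' v := by
  let φ : ρ.V →+ B := ψ + w.comp ψ
  have hφ : ∀ (σ : Γℚ) v, φ (ρ.ρ σ v) = σ • φ v := fun σ v => by
    simp [φ, hψ, hwσ, smul_add]
  rcases eq_zero_or_injective hirr (fun σ => DistribSMul.toAddMonoidHom B σ) φ hφ with h | h
  · refine ⟨ψ, -1, Or.inr rfl, hψ0, hψ, fun v => ?_⟩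
    have h1 : ψ v + w (ψ v) = 0 := DFunLike.congr_fun h v
    rw [neg_one_zsmul]
    exact eq_neg_of_add_eq_zero_right h1
  · exact ⟨φ, 1, Or.inl rfl, h, hφ, fun v => by simp [φ, hw, add_comm]⟩

theorem isResiduallyModularOfLevel_of_inputs
    (hK : ∀ (N : ℕ) [NeZero N], HasKummerIso N)
    (hF : ∀ (N : ℕ) [NeZero N] (p : ℕ) [Fact p.Prime], FrobeniusOnTorsion N p)
    {p : ℕ} [Fact p.Prime] (hp3 : p ≠ 2) {W : WeierstrassCurve ℤ} (hΔ : W.Δ ≠ 0)
    (hcard : Nat.card (Submodule.torsionBy ℤ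
      ((W.map (Int.castRingHom ℚ))⁄(AlgebraicClosure ℚ)).Point p) = p ^ 2)
    (hker : GaloisFactorsThroughFiniteLevel
      (WeierstrassCurve.Affine.Point.galoisRepModuleEnd (K := AlgebraicClosure ℚ) ℚ
        (W.map (Int.castRingHom ℚ)) p))
    (hirrW : W.ModRepIsIrreducible p) {M q : ℕ} [NeZero M] [NeZero (M * q)] (hq : q.Prime)
    (hqp : q ≠ p) (hI : LocalInputs q p M) (hq1 : (q : ZMod p) ≠ 1)
    (hunr : ((W.map (Int.castRingHom ℚ)).residualGaloisRepOf p hcard hker).IsUnramifiedAt q)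
    (hmod : W.IsResiduallyModularOfLevel p (M * q)) :
    W.IsResiduallyModularOfLevel p M := by
  classical
  have hp : p.Prime := Fact.out
  haveI : NeZero p := ⟨hp.ne_zero⟩
  have hN : 0 < M * q := NeZero.pos _
  set E := W.map (Int.castRingHom ℚ) with hE
  haveI : E.IsElliptic := EC.isElliptic_map_rat hΔ
  set ρ := E.residualGaloisRepOf p hcard hker with hρdef
  have hS29 : RT.EigenformResidualRep := fun hg p hp k _ _ φ =>
    exists_residualGaloisRep_isAttachedTo_of hK hF (fun N _ => galoisFiniteLevel_x0 N) hg hp φ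
  have habs : ρ.IsAbsolutelyIrreducible :=
    EC.residualGaloisRepOf_isAbsolutelyIrreducible hΔ hp3 hcard hker hirrW
  have hirr : ρ.IsIrreducible := Density.isIrreducible_of_absolutelyIrreducible ρ habs
  set S : Finset ℕ := (M * q * p * W.Δ.natAbs).primeFactors with hS
  have hS0 : M * q * p * W.Δ.natAbs ≠ 0 :=
    mul_ne_zero (mul_ne_zero hN.ne' hp.ne_zero) (Int.natAbs_ne_zero.2 hΔ)
  have hout : ∀ ℓ : ℕ, ℓ.Prime → ℓ ∉ S → ¬ ℓ ∣ M * q * p ∧ W.IsGoodPrimeFor ℓ ∧ ℓ ≠ p := by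
    intro ℓ hℓ hℓS
    have h : ¬ ℓ ∣ M * q * p * W.Δ.natAbs := fun h => hℓS (Nat.mem_primeFactors.2 ⟨hℓ, h, hS0⟩)
    exact ⟨fun h' => h (h'.mul_right _), fun h' => h (dvd_mul_of_dvd_right (Int.natCast_dvd.1 h') _),
      fun h' => h (dvd_mul_of_dvd_left (h' ▸ dvd_mul_left ℓ _) _)⟩
  have hchar : ∀ ℓ : ℕ, ℓ.Prime → ℓ ∉ S → ∀ A : ValuationSubring ℚ̄, A.LiesOverPrime ℓ →
      ∀ σ : Γℚ, A.IsFrobeniusAt σ ℓ →
        LinearMap.charpoly (ρ.ρ σ) = X ^ 2 - C (W.apOfModel ℓ : ZMod p) * X + C (ℓ : ZMod p) :=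
    fun ℓ hℓ hℓS A hA σ hσ =>
      EC.charpoly_residualGaloisRepOf W hℓ hA (hout ℓ hℓ hℓS).2.1 hσ (hout ℓ hℓ hℓS).2.2 hcard hker
  obtain ⟨g, 𝔪, hg, hmax, hpm, hcong⟩ := hmod
  obtain ⟨ψ₀, hψ₀, hψ₀σ⟩ := exists_embedding (hK (M * q)) (hF (M * q) p) ρ habs S W.apOfModel hchar
    hg hmax hpm fun ℓ hℓ hℓS => hcong ℓ hℓ (hout ℓ hℓ hℓS).2.1
      (fun h => (hout ℓ hℓ hℓS).1 (h.mul_right p)) (hout ℓ hℓ hℓS).2.2
  obtain ⟨w, hw, hwσ, -, hloc⟩ := hI
  obtain ⟨ψ, ε, hε, hψ, hψσ, hwψ⟩ := exists_eigen_embedding hirr w hw hwσ ψ₀ hψ₀ hψ₀σ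
  have hT : ∀ ℓ : Nat.Primes, (ℓ : ℕ) ∉ S → ∀ v,
      heckeOperatorBar (M * q) ℓ (ψ v) = W.apOfModel ℓ • ψ v := fun ℓ hℓS v =>
    heckeOperatorBar_apply_of_equivariant (hF (M * q) p) hψσ ℓ.2 (hout ℓ ℓ.2 hℓS).1
      (hchar ℓ ℓ.2 hℓS) v
  -- the number field cut out by `ρ`
  obtain ⟨L, hLfin, hLgal, hLfix⟩ := exists_kernelField ρ
  obtain ⟨A, φ, hA, hφ⟩ := Galois.exists_valuationSubring_isFrobeniusAt hq
  obtain ⟨slope, red, hslope, hred, hfrob⟩ :=
    hloc L hLfin hLgal (fun B hB τ hτ => by rw [hLfix]; exact hunr B hB τ hτ) A hA φ hφ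
  have htors : ∀ v : ρ.V, p • ψ v = 0 := fun v => by
    rw [← map_nsmul, ← Nat.cast_smul_eq_nsmul (ZMod p), ZMod.natCast_self, zero_smul, map_zero]
  have hmem : ∀ v, ψ v ∈ fixedTorsion (M * q) p L := fun v => ⟨htors v, fun σ hσ => by
    rw [hLfix, MonoidHom.mem_ker] at hσ
    rw [← hψσ, hσ, Module.End.one_apply]⟩
  let P : ρ.V →+ fixedTorsion (M * q) p L := ψ.codRestrict _ hmem
  -- the slope is zero on the image
  have hslope0 : ∀ v, slope (P v) = 0 := by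
    intro v
    by_contra hv
    haveI : NeZero (M * q * p * W.Δ.natAbs) := ⟨hS0⟩
    obtain ⟨ℓ, hℓ, -, -, hℓM, -, hne⟩ := LevelRaise.exists_good_prime_not_eisenstein E
      (W := W) ⟨1, one_smul _ _⟩ hp hp3 hirrW (M * q * p * W.Δ.natAbs)
    have hℓS : ℓ ∉ S := fun h => hℓM (Nat.mem_primeFactors.1 h).2.1
    refine hne (mul_right_cancel₀ hv ?_)
    rw [← hslope ⟨ℓ, hℓ⟩ (hout ℓ hℓ hℓS).1 (P v) (W.apOfModel ℓ • P v)
      (hT ⟨ℓ, hℓ⟩ hℓS v).symm, map_zsmul, zsmul_eq_mul]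
  by_cases hcase : ∀ v, ψ v ∈ red
  · -- Frobenius at `q` would be the scalar `-ε q`
    exfalso
    have hscal : ρ.ρ φ = (-(ε : ZMod p) * q) • 1 := by
      refine LinearMap.ext fun v => hψ ?_
      rw [hψσ, LinearMap.smul_apply, Module.End.one_apply]
      have h := hfrob (P v) (hslope0 v) (hcase v)
      rw [show ((P v : JZero (M * q))) = ψ v from rfl, hwψ] at h
      rw [h, show (-(ε : ZMod p) * q) = ((-(ε * q) : ℤ) : ZMod p) by push_cast; ring,
        Int.cast_smul_eq_zsmul, map_zsmul, neg_zsmul, mul_comm ε, mul_zsmul, natCast_zsmul]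
    have hdet : LinearMap.det (ρ.ρ φ) = (q : ZMod p) := by
      have h := EC.det_galoisRepModuleEnd_eq_cycloChar hΔ p φ
      rw [EC.cycloChar_eq_of_isFrobeniusAt hq
        (fun h => hqp ((Nat.prime_dvd_prime_iff_eq hq hp).1 h)) hA hφ] at h
      exact h
    rw [hscal, LinearMap.det_smul, ρ.finrank_eq, map_one, mul_one] at hdet
    have hε2 : (ε : ZMod p) * ε = 1 := by rcases hε with rfl | rfl <;> simp
    have hq0 : (q : ZMod p) ≠ 0 := fun h => hqp
      (((Nat.prime_dvd_prime_iff_eq hp hq).1 ((ZMod.natCast_eq_zero_iff _ _).1 h)).symm)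
    refine hq1 (mul_left_cancel₀ hq0 ?_)
    linear_combination hdet - (q : ZMod p) ^ 2 * hε2
  -- otherwise the system factors through level `M`
  push Not at hcase
  obtain ⟨v, hv⟩ := hcase
  refine isResiduallyModularOfLevel_of_killed hS29 RT.torsionFrobeniusCharpoly hΔ
    (dvd_mul_right M q) S fun t ht hvars => ?_
  by_contra hne
  let a : ℤ := MvPolynomial.eval (fun ℓ : GoodPrimes (M * q) => W.apOfModel (ℓ.1 : Nat.Primes)) t
  have hact : evalJ (M * q) t (ψ v) = a • ψ v := by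
    obtain ⟨t', rfl⟩ := MvPolynomial.exists_rename_eq_of_vars_subset_range t
      (Subtype.val : {ℓ : GoodPrimes (M * q) // ((ℓ.1 : Nat.Primes) : ℕ) ∉ S} → _)
      Subtype.val_injective (fun ℓ hℓ => ⟨⟨ℓ, hvars ℓ hℓ⟩, rfl⟩)
    suffices h : ∀ v, evalJ (M * q) (MvPolynomial.rename Subtype.val t') (ψ v) =
        (MvPolynomial.eval (fun ℓ => W.apOfModel (ℓ.1 : Nat.Primes))
          (MvPolynomial.rename Subtype.val t')) • ψ v from h v
    clear a hne ht hvars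
    induction t' using MvPolynomial.induction_on with
    | C c =>
      intro v
      simp
    | add a b ha hb =>
      intro v
      rw [map_add, map_add, map_add, LinearMap.add_apply, ha, hb, add_zsmul]
    | mul_X a ℓ ha =>
      intro v
      simp only [map_mul, MvPolynomial.rename_X, Module.End.mul_apply, evalJ_X,
        MvPolynomial.eval_X, hT ℓ.1.1 ℓ.2, map_zsmul, ha, smul_smul]
      congr 1
      ring
  have hmemr : a • ψ v ∈ red := by
    rw [← hact]; exact hred t ht (P v) (hslope0 v)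
  have ha : (a : ZMod p) ≠ 0 := by
    intro h
    refine hne (Eq.trans ?_ h)
    show _ = ((MvPolynomial.eval (fun ℓ : GoodPrimes (M * q) =>
      W.apOfModel (ℓ.1 : Nat.Primes)) t : ℤ) : ZMod p)
    clear hne hvars ht hact hmemr h a
    induction t using MvPolynomial.induction_on with
    | C c => simp
    | add u v hu hv => simp [hu, hv]
    | mul_X u ℓ hu => simp [hu]
  refine hv ?_
  obtain ⟨b, hb⟩ := ZMod.intCast_surjective ((a : ZMod p)⁻¹)
  have h1 : ψ v = b • a • ψ v := by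
    rw [smul_smul, ← map_zsmul, ← Int.cast_smul_eq_zsmul (ZMod p), Int.cast_mul, hb,
      inv_mul_cancel₀ ha, one_smul]
  rw [h1]
  exact red.zsmul_mem hmemr b

/-- Mazur's principle from the local inputs. -/
theorem mazurPrinciple_of_inputs
    (hK : ∀ (N : ℕ) [NeZero N], HasKummerIso N)
    (hF : ∀ (N : ℕ) [NeZero N] (p : ℕ) [Fact p.Prime], FrobeniusOnTorsion N p)
    (hI : ∀ (q p M : ℕ) [NeZero M] [NeZero (M * q)], q.Prime → q ≠ 2 → p.Prime → 5 ≤ p → q ≠ p →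
      ¬ q ∣ M → LocalInputs q p M) :
    MazurPrinciple := by
  classical
  intro p _ hp5 W hΔ hcard hker hirrW N q hN hq hq2' hqp hqN hq2 hq1 hunr hmod
  obtain ⟨M, rfl⟩ : ∃ M, N = M * q := ⟨N / q, (Nat.div_mul_cancel hqN).symm⟩
  rw [Nat.mul_div_cancel M hq.pos]
  have hp : p.Prime := Fact.out
  have hqM : ¬ q ∣ M := fun h => hq2 (by rw [pow_two]; exact Nat.mul_dvd_mul_right h q)
  haveI : NeZero M := ⟨fun h => by simp [h] at hN⟩
  haveI : NeZero (M * q) := ⟨hN.ne'⟩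
  exact isResiduallyModularOfLevel_of_inputs hK hF (by omega) hΔ hcard hker hirrW hq hqp
    (hI q p M hq hq2' hp hp5 hqp hqM) hq1 hunr hmod

end Fermat.Agent.BadPrime.Mazur
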