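import Fermat.Prelude.Def_CuspForm_HeckeAlgebra
import Fermat.Agent.EichlerShimura.Commute
import Fermat.Agent.EichlerShimura.GaloisHecke
import Fermat.Agent.RT.ResidualExtend

/-!
# Mazur's principle at `q ≠ p`: the statement and its local inputs

`MazurPrinciple`: if `q ‖ M`, `q ≢ 1 (mod p)` and the irreducible `E[p]` is unramified at `q` and
residually modular of level `M`, then it is residually modular of level `M / q`.

`LocalInputs q p M` collects what the bad reduction of `X₀(Mq)` at `q ∤ M` gives on the `p`-torsion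
classes fixed by the Galois group of a number field unramified at `q`: the difference of the
orders at the two vertical components (`slope`), and the classes reducing to zero on both
components (`red`), on which Frobenius is `-q` times the Atkin–Lehner involution.
-/

set_option autoImplicit false

noncomputable section

open ModularCurve MvPolynomial
open scoped WeierstrassCurve.Affine

namespace Fermat.Agent.BadPrime.Mazur

local notation "ℚ̄" => AlgebraicClosure ℚ
local notation "Γℚ" => (AlgebraicClosure ℚ ≃ₐ[ℚ] AlgebraicClosure ℚ)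

/-- The primes not dividing `N`. -/
abbrev GoodPrimes (N : ℕ) : Type := {ℓ : Nat.Primes // ¬ (ℓ : ℕ) ∣ N}

/-- A polynomial in the good Hecke operators, on `J₀(N)`. -/
def evalJ (N : ℕ) [NeZero N] : MvPolynomial (GoodPrimes N) ℤ →+* Module.End ℤ (JZero N) :=
  (heckeEvalBar (EichlerShimura.heckeOperatorsCommuteBar N)).comp
    (rename (Subtype.val : GoodPrimes N → Nat.Primes)).toRingHom

theorem evalJ_X (N : ℕ) [NeZero N] (ℓ : GoodPrimes N) :
    evalJ N (X ℓ) = heckeOperatorBar N ℓ.1 := by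
  show heckeEvalBar _ (rename Subtype.val (X ℓ)) = _
  rw [rename_X]
  exact heckeEvalBar_heckeGen _ ℓ.1

/-- A polynomial in the Hecke operators at the primes not dividing `N`, on cusp forms of level
`M ∣ N`. -/
def evalS {M N : ℕ} [NeZero M] (h : M ∣ N) :
    MvPolynomial (GoodPrimes N) ℤ →ₐ[ℤ] CuspForm.heckeAlgebra M 2 (∅ : Set ℕ) :=
  aeval fun ℓ => CuspForm.heckeAlgebra.T ℓ.1.2 (fun hd => ℓ.2 (hd.trans h)) (Set.notMem_empty _)

theorem evalS_X {M N : ℕ} [NeZero M] (h : M ∣ N) (ℓ : GoodPrimes N) :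
    evalS h (X ℓ) =
      CuspForm.heckeAlgebra.T ℓ.1.2 (fun hd => ℓ.2 (hd.trans h)) (Set.notMem_empty _) :=
  aeval_X _ _

/-- The `p`-torsion classes fixed by the Galois group of `L`. -/
def fixedTorsion (N p : ℕ) (L : IntermediateField ℚ ℚ̄) : AddSubgroup (JZero N) where
  carrier := {x | p • x = 0 ∧ ∀ σ ∈ L.fixingSubgroup, σ • x = x}
  zero_mem' := ⟨smul_zero _, fun _ _ => smul_zero _⟩
  add_mem' := fun {x y} hx hy => ⟨by rw [nsmul_add, hx.1, hy.1, add_zero],
    fun σ hσ => by rw [smul_add, hx.2 σ hσ, hy.2 σ hσ]⟩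
  neg_mem' := fun {x} hx => ⟨by rw [neg_nsmul, hx.1, neg_zero],
    fun σ hσ => by rw [smul_neg, hx.2 σ hσ]⟩

theorem mem_fixedTorsion {N p : ℕ} {L : IntermediateField ℚ ℚ̄} {x : JZero N} :
    x ∈ fixedTorsion N p L ↔ p • x = 0 ∧ ∀ σ ∈ L.fixingSubgroup, σ • x = x :=
  Iff.rfl

/-- The inputs from the bad reduction of `X₀(Mq)` at the prime `q ∤ M`. -/
def LocalInputs (q p M : ℕ) [NeZero M] [NeZero (M * q)] : Prop :=
  ∃ w : JZero (M * q) →+ JZero (M * q),
    (∀ x, w (w x) = x) ∧ (∀ (σ : Γℚ) x, σ • w x = w (σ • x)) ∧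
    (∀ (ℓ : Nat.Primes), ¬ (ℓ : ℕ) ∣ M * q → ∀ x,
      heckeOperatorBar (M * q) ℓ (w x) = w (heckeOperatorBar (M * q) ℓ x)) ∧
    ∀ L : IntermediateField ℚ ℚ̄, FiniteDimensional ℚ L → IsGalois ℚ L →
    (∀ A : ValuationSubring ℚ̄, A.LiesOverPrime q →
      ∀ τ ∈ A.inertiaSubgroupIn ℚ, τ ∈ L.fixingSubgroup) →
    ∀ A : ValuationSubring ℚ̄, A.LiesOverPrime q →
    ∀ φ : Γℚ, A.IsFrobeniusAt φ q →
    ∃ (slope : fixedTorsion (M * q) p L →+ ZMod p) (red : AddSubgroup (JZero (M * q))),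
      (∀ (ℓ : Nat.Primes), ¬ (ℓ : ℕ) ∣ M * q * p → ∀ x y : fixedTorsion (M * q) p L,
        (y : JZero (M * q)) = heckeOperatorBar (M * q) ℓ x →
          slope y = (((ℓ : ℕ) : ZMod p) + 1) * slope x) ∧
      (∀ t, evalS (M := M) (dvd_mul_right M q) t = 0 →
        ∀ x : fixedTorsion (M * q) p L, slope x = 0 → evalJ (M * q) t (x : JZero (M * q)) ∈ red) ∧
      ∀ x : fixedTorsion (M * q) p L, slope x = 0 → (x : JZero (M * q)) ∈ red →
        φ • (x : JZero (M * q)) = -(q • w (x : JZero (M * q)))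

/-- Mazur's principle at an odd prime `q ≢ 1 (mod p)`, `q ≠ p`. -/
def MazurPrinciple : Prop :=
  ∀ (p : ℕ) [Fact p.Prime], 5 ≤ p → ∀ (W : WeierstrassCurve ℤ), W.Δ ≠ 0 →
    ∀ (hcard : Nat.card (Submodule.torsionBy ℤ
      ((W.map (Int.castRingHom ℚ))⁄(AlgebraicClosure ℚ)).Point p) = p ^ 2)
    (hker : GaloisFactorsThroughFiniteLevel
      (WeierstrassCurve.Affine.Point.galoisRepModuleEnd (K := AlgebraicClosure ℚ) ℚ
        (W.map (Int.castRingHom ℚ)) p)),
    W.ModRepIsIrreducible p → ∀ (M q : ℕ), 0 < M → q.Prime → q ≠ 2 → q ≠ p → q ∣ M → ¬ q ^ 2 ∣ M →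
    (q : ZMod p) ≠ 1 →
    ((W.map (Int.castRingHom ℚ)).residualGaloisRepOf p hcard hker).IsUnramifiedAt q →
    W.IsResiduallyModularOfLevel p M → W.IsResiduallyModularOfLevel p (M / q)

end Fermat.Agent.BadPrime.Mazur
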