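import Fermat.Agent.BadPrime.Mazur.Defs
import Fermat.Agent.Hecke.EigenformOfChar
import Fermat.Agent.HeckeFinite.Finite
import Fermat.Agent.BadPrime.Raise
import Mathlib.RingTheory.Ideal.GoingUp

/-!
# Residual modularity from a congruence with the Hecke algebra of lower level
-/

set_option autoImplicit false

noncomputable section

open MvPolynomial

namespace Fermat.Agent.BadPrime.Mazur

/-- If every polynomial in the good Hecke operators vanishing at level `M` vanishes modulo `p` at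
the traces of `W`, then `W` is residually modular of level `M`. -/
theorem isResiduallyModularOfLevel_of_killed (hS29 : RT.EigenformResidualRep)
    (hFrob : RT.TorsionFrobeniusCharpoly) {W : WeierstrassCurve ℤ} (hΔ : W.Δ ≠ 0) {p : ℕ}
    [Fact p.Prime] {M N : ℕ} [NeZero M] [NeZero N] (h : M ∣ N) (S : Finset ℕ)
    (hkill : ∀ t : MvPolynomial (GoodPrimes N) ℤ, evalS h t = 0 →
      (∀ ℓ ∈ t.vars, ((ℓ.1 : Nat.Primes) : ℕ) ∉ S) →
      aeval (fun ℓ : GoodPrimes N => (W.apOfModel (ℓ.1 : Nat.Primes) : ZMod p)) t = 0) :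
    W.IsResiduallyModularOfLevel p M := by
  classical
  have hp : p.Prime := Fact.out
  let σ : Set (GoodPrimes N) := {ℓ | ((ℓ.1 : Nat.Primes) : ℕ) ∉ S}
  let ev : MvPolynomial σ ℤ →ₐ[ℤ] CuspForm.heckeAlgebra M 2 (∅ : Set ℕ) :=
    (evalS h).comp (rename Subtype.val)
  let th : MvPolynomial σ ℤ →ₐ[ℤ] ZMod p :=
    (aeval fun ℓ : GoodPrimes N => (W.apOfModel (ℓ.1 : Nat.Primes) : ZMod p)).comp
      (rename Subtype.val)
  have hle : RingHom.ker ev.rangeRestrict.toRingHom ≤ RingHom.ker th.toRingHom := by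
    intro t ht
    refine hkill _ (congrArg Subtype.val (RingHom.mem_ker.1 ht)) fun ℓ hℓ => ?_
    obtain ⟨l, -, rfl⟩ := Finset.mem_image.1 (MvPolynomial.vars_rename Subtype.val t hℓ)
    exact l.2
  have hsurj : Function.Surjective ev.rangeRestrict.toRingHom := AlgHom.rangeRestrict_surjective ev
  let θ : ev.range →+* ZMod p := ev.rangeRestrict.toRingHom.liftOfSurjective hsurj ⟨_, hle⟩
  have hθ : ∀ t, θ (ev.rangeRestrict t) = th t := fun t =>
    RingHom.liftOfRightInverse_comp_apply _ _ _ ⟨th.toRingHom, hle⟩ t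
  have := HeckeFinite.moduleFinite_heckeAlgebra M 2 (∅ : Set ℕ)
  have : Module.Finite ev.range (CuspForm.heckeAlgebra M 2 (∅ : Set ℕ)) :=
    Module.Finite.of_restrictScalars_finite ℤ _ _
  have : (RingHom.ker θ).IsPrime := RingHom.ker_isPrime θ
  obtain ⟨Q, -, hQ, hQθ⟩ := Ideal.exists_ideal_over_prime_of_isIntegral (RingHom.ker θ)
    (⊥ : Ideal (CuspForm.heckeAlgebra M 2 (∅ : Set ℕ))) (by
      intro x hx
      rw [Ideal.mem_comap, Ideal.mem_bot] at hx
      rw [RingHom.mem_ker, show x = 0 from Subtype.ext hx, map_zero])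
  have hmem : ∀ t, th t = 0 → ev t ∈ Q := fun t ht => by
    have h1 : ev.rangeRestrict t ∈ RingHom.ker θ := by rw [RingHom.mem_ker, hθ, ht]
    rw [← hQθ] at h1
    exact h1
  have := finiteDimensional_cuspForm M
  obtain ⟨φ, f, hker, hf, -, hfT, -⟩ := Hecke.exists_normalizedEigenform_ker_le Q
  let φ' : CuspForm.heckeAlgebra M 2 (∅ : Set ℕ) →+* integralClosure ℤ ℂ :=
    φ.codRestrict _ fun t => (Algebra.IsIntegral.isIntegral t).map φ.toIntAlgHom
  let _ : Algebra (CuspForm.heckeAlgebra M 2 (∅ : Set ℕ)) (integralClosure ℤ ℂ) := φ'.toAlgebra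
  have : Algebra.IsIntegral (CuspForm.heckeAlgebra M 2 (∅ : Set ℕ)) (integralClosure ℤ ℂ) :=
    ⟨fun x => (Algebra.IsIntegral.isIntegral (R := ℤ) x).tower_top⟩
  obtain ⟨P, -, hP, hPQ⟩ := Ideal.exists_ideal_over_prime_of_isIntegral Q
    (⊥ : Ideal (integralClosure ℤ ℂ)) (by
      intro x hx
      rw [Ideal.mem_comap, Ideal.mem_bot] at hx
      exact hker (RingHom.mem_ker.2 (congrArg Subtype.val hx)))
  obtain ⟨𝔪, hmax, hP𝔪⟩ := Ideal.exists_le_maximal P hP.ne_top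
  have hφ : ∀ t ∈ Q, φ' t ∈ 𝔪 := fun t ht => hP𝔪 (by rw [← hPQ] at ht; exact ht)
  have hpm : (p : integralClosure ℤ ℂ) ∈ 𝔪 := by
    have := hφ _ (hmem (p : MvPolynomial σ ℤ) (by rw [map_natCast, ZMod.natCast_self]))
    rwa [map_natCast, map_natCast] at this
  refine RT.isResiduallyModularOfLevel_of_cofinite hS29 hFrob hΔ hp (NeZero.pos M) hf hmax hpm
    (S ∪ N.primeFactors) fun ℓ hℓ hℓS => ?_
  rw [Finset.mem_union, not_or, Nat.mem_primeFactors] at hℓS
  have hℓN : ¬ ℓ ∣ N := fun hd => hℓS.2 ⟨hℓ, hd, NeZero.ne N⟩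
  have hℓM : ¬ ℓ ∣ M := fun hd => hℓN (hd.trans h)
  refine ⟨φ' (CuspForm.heckeAlgebra.T hℓ hℓM (Set.notMem_empty ℓ)), (hfT ℓ hℓ hℓM).symm, ?_⟩
  let x : σ := ⟨⟨⟨ℓ, hℓ⟩, hℓN⟩, hℓS.1⟩
  have h2 := hφ _ (hmem (X x - C (W.apOfModel ℓ)) (by simp [th, x]))
  have e : ev (X x - C (W.apOfModel ℓ)) =
      CuspForm.heckeAlgebra.T hℓ hℓM (Set.notMem_empty ℓ) -
        ((W.apOfModel ℓ : ℤ) : CuspForm.heckeAlgebra M 2 (∅ : Set ℕ)) := by
    simp [ev, x, evalS_X]
  rwa [e, map_sub, map_intCast] at h2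

end Fermat.Agent.BadPrime.Mazur
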